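/-
GATE-F (S40/S44) / node GF-NORMDEPTH-INST-ASM, file 3 (helper86): **S3 (completion-free),
BINDER-FREE**: the `UDepth` binder of `Inst/Modular.lean` is helper50's
`GF/NormDepth/U/Modular.val_uNormF_sub_one_le`.

* `udepth A : UDepth A` ;
* `deep_of_mem_M0_Knew` : `x ∈ ker r₁ ∩ ker r₂` with `α_* x = 0 = α_* (W_p x)` ⟹ for EVERY constant
  `c ≠ 0`, `x` has a representative `u₁` with `u₁ - 1 ∈ c • Rw₁` and a representative `u₂` with
  `u₂ - 1 ∈ c • Rw₂`.
-/
import Fermat.Agent.GF.NormDepth.Inst.Modular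
import Fermat.Agent.GF.NormDepth.U.Modular

set_option autoImplicit false
set_option linter.unusedSectionVars false

noncomputable section

namespace Fermat.Agent.GF.NormDepth.Inst

open AlgebraicCurve ModularCurve
open Fermat.Agent.S24 Fermat.Agent.S24_helper62
open Fermat.Agent.GJ.J1 Fermat.Agent.GJ.J1.Val
open Fermat.Agent.GJ.KumGroup Fermat.Agent.GJ.Kum.KumType
open Fermat.Agent.GK.AL Fermat.Agent.GK.UQ Fermat.Agent.GK.UTr Fermat.Agent.GK.UqKronecker

variable {N' p : ℕ} [NeZero N'] [Fact p.Prime] (h : ExactDvd p (N' * p))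
  (A : ValuationSubring Kbar)

/-- **the U-DEPTH binder is a theorem** (helper50) -/
theorem udepth : UDepth (N' := N') (p := p) A := by
  intro z _ hz
  exact Fermat.Agent.GF.NormDepth.U.val_uNormF_sub_one_le A (Dvd.intro_left N' rfl) z hz.le

variable {A}

/-- **S3 (completion-free), binder-free**: a class of `M⁰ = ker r₁ ∩ ker r₂` in the `p`-new part
`ker α_* ∩ ker β_*` has representatives arbitrarily close to `1` for BOTH Gauss valuations. -/
theorem deep_of_mem_M0_Knew (hA : A.LiesOverPrime p)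
    {x : Additive (Kum Kb (FK (N' * p)) p)} (hx1 : x ∈ kerRed (N' * p) A p)
    (hx2 : x ∈ kerRed₂ h A p) (h1 : aLow N' p p x = 0) (h2 : bLow h p x = 0) :
    Deep (redDataBar (N' * p) A) p x ∧ Deep (redData2 (N' * p) A h) p x :=
  deep_of_udepth h hA (udepth A) hx1 hx2 h1 h2

end Fermat.Agent.GF.NormDepth.Inst

end
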