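/-
GATE-F (S40) / node GF-NORMDEPTH-INST-ASM, file 1 (helper86): **deep representatives**
(completion-free form of "the Kummer function is a `p`-th power in the completion").

`R : RedData K F k Ft` a Gauss-type valuation of `F/K`, unramified over the base (`Unram R`), with
archimedean base valuation (`Arch R.A`).

* `Deep R p x` : for every constant `c ≠ 0` the class `x : Kum K F p` has a representative `u` with
  `u - 1 ∈ c • R.Rw`;
* `deep_of_gain` : if a unit operator `T : Fˣ →* Fˣ` GAINS depth,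
  `v (T z - 1) ≤ max (v p) (v (z - 1)) * v (z - 1)` for `v (z - 1) < 1`, and fixes the class of `ξ`
  (`ξ = T ξ * c ^ p`), `v (ξ - 1) < 1`, then the class of `ξ` is deep
  (helper50's `DeepRep.exists_deep_rep_of_gain` + `Unram` + `Arch`).
-/
import Mathlib
import Fermat.Agent.GF.Trop.Approx
import Fermat.Agent.GF.NormDepth.DeepRep

set_option autoImplicit false
set_option linter.unusedSectionVars false

noncomputable section

namespace Fermat.Agent.GF.NormDepth.Inst

open Fermat.Agent.GJ.J1 Fermat.Agent.GJ.KumGroup Fermat.Agent.GF.Trop Fermat.Agent.GF.NormDepth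

variable {K F k Ft : Type*} [Field K] [Field F] [Algebra K F] [Field k] [Field Ft] [Algebra k Ft]

/-- **`x` has representatives arbitrarily close to `1`** for the valuation of `R`. -/
def Deep (R : RedData K F k Ft) (p : ℕ) (x : Additive (Kum K F p)) : Prop :=
  ∀ c : K, c ≠ 0 → ∃ u : pDivUnits K F p, Additive.ofMul (Kum.mk u) = x ∧
    ∃ r ∈ R.Rw, ((u : Fˣ) : F) - 1 = algebraMap K F c * r

variable (R : RedData K F k Ft)

/-- comparison of the valuations of constants -/
theorem val_algebraMap_le_iff {a b : K} (hb : b ≠ 0) :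
    R.Rw.valuation (algebraMap K F a) ≤ R.Rw.valuation (algebraMap K F b) ↔
      R.A.valuation a ≤ R.A.valuation b := by
  have hbF : algebraMap K F b ≠ 0 := by simpa using hb
  have h1 : R.Rw.valuation (algebraMap K F a) ≤ R.Rw.valuation (algebraMap K F b) ↔
      algebraMap K F (a / b) ∈ R.Rw := by
    rw [← R.Rw.valuation_le_one_iff, map_div₀, map_div₀,
      div_le_one₀ (zero_lt_iff.mpr ((Valuation.ne_zero_iff _).mpr hbF))]
  have h2 : R.A.valuation a ≤ R.A.valuation b ↔ a / b ∈ R.A := by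
    rw [← R.A.valuation_le_one_iff, map_div₀,
      div_le_one₀ (zero_lt_iff.mpr ((Valuation.ne_zero_iff _).mpr hb))]
  rw [h1, h2, R.mem_A_iff]

/-- membership form of a valuation bound by a constant -/
theorem exists_eq_mul_of_val_le {y : F} {c : K} (hc : c ≠ 0)
    (h : R.Rw.valuation y ≤ R.Rw.valuation (algebraMap K F c)) :
    ∃ r ∈ R.Rw, y = algebraMap K F c * r := by
  have hcF : algebraMap K F c ≠ 0 := by simpa using hc
  refine ⟨y / algebraMap K F c, ?_, by field_simp⟩
  rw [← R.Rw.valuation_le_one_iff, map_div₀,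
    div_le_one₀ (zero_lt_iff.mpr ((Valuation.ne_zero_iff _).mpr hcF))]
  exact h

/-- under `Unram`, every nonzero value is the value of a constant -/
theorem exists_const_val_eq (hun : Unram R) {y : F} (hy : y ≠ 0) :
    ∃ c : K, c ≠ 0 ∧ R.Rw.valuation y = R.Rw.valuation (algebraMap K F c) := by
  obtain ⟨c, hc0, hm, hmi⟩ := hun y hy
  have hcF : algebraMap K F c ≠ 0 := by simpa using hc0
  have h1 : R.Rw.valuation (algebraMap K F c * y) = 1 := by
    apply le_antisymm ((R.Rw.valuation_le_one_iff _).mpr hm)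
    have h2 := (R.Rw.valuation_le_one_iff _).mpr hmi
    rw [map_inv₀] at h2
    have hne : R.Rw.valuation (algebraMap K F c * y) ≠ 0 :=
      (Valuation.ne_zero_iff _).mpr (mul_ne_zero hcF hy)
    exact (inv_le_one₀ (zero_lt_iff.mpr hne)).mp h2
  refine ⟨c⁻¹, inv_ne_zero hc0, ?_⟩
  rw [map_mul] at h1
  rw [map_inv₀, map_inv₀]
  exact eq_inv_of_mul_eq_one_right h1

variable {R}

/-- **deep representatives from a depth-gaining operator fixing the class** -/
theorem deep_of_gain (hun : Unram R) (harch : Arch R.A) {p : ℕ}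
    (hpA : R.A.valuation (p : K) < 1) (hp0 : (p : K) ≠ 0) (T : Fˣ →* Fˣ)
    (hgain : ∀ z : Fˣ, R.Rw.valuation ((z : F) - 1) < 1 →
      R.Rw.valuation ((T z : F) - 1) ≤
        max (R.Rw.valuation (p : F)) (R.Rw.valuation ((z : F) - 1)) *
          R.Rw.valuation ((z : F) - 1))
    (ξ : pDivUnits K F p) (h0 : R.Rw.valuation (((ξ : Fˣ) : F) - 1) < 1)
    (hξ : ∃ c : Fˣ, (ξ : Fˣ) = T ξ * c ^ p) :
    Deep R p (Additive.ofMul (Kum.mk ξ)) := by
  intro c hc
  set v := R.Rw.valuation with hv
  by_cases h1 : ((ξ : Fˣ) : F) - 1 = 0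
  · refine ⟨ξ, rfl, 0, R.Rw.zero_mem, ?_⟩
    rw [h1, mul_zero]
  -- the constants `c0` (value of `ξ - 1`) and `e` (the gain factor)
  obtain ⟨c0, hc00, hc0⟩ := exists_const_val_eq R hun h1
  have hc0lt : R.A.valuation c0 < 1 := by
    have h2 : v (algebraMap K F c0) < v (algebraMap K F (1 : K)) := by
      rw [map_one, map_one, ← hc0]; exact h0
    rw [lt_iff_not_ge] at h2 ⊢
    intro h3
    apply h2
    have := (val_algebraMap_le_iff R (a := 1) (b := c0) hc00).mpr (by rwa [map_one])
    exact this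
  set δ₀ := v (((ξ : Fˣ) : F) - 1) with hδ₀
  -- the gain factor is the value of a constant `e` with `|e| < 1`
  obtain ⟨e, he0, helt, heq⟩ : ∃ e : K, e ≠ 0 ∧ R.A.valuation e < 1 ∧
      max (v (p : F)) δ₀ = v (algebraMap K F e) := by
    rcases le_total (v (p : F)) δ₀ with hle | hle
    · exact ⟨c0, hc00, hc0lt, by rw [max_eq_right hle, hc0]⟩
    · exact ⟨(p : K), hp0, hpA, by rw [max_eq_left hle, map_natCast (algebraMap K F)]⟩
  set ε := max (v (p : F)) δ₀ with hε
  have hε1 : ε ≤ 1 := by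
    rw [heq]
    have := (val_algebraMap_le_iff R (a := e) (b := 1) one_ne_zero).mpr
      (by rw [map_one]; exact helt.le)
    rwa [map_one, map_one] at this
  have hgain' : ∀ x : Fˣ, v ((x : F) - 1) ≤ δ₀ → v ((T x : F) - 1) ≤ ε * v ((x : F) - 1) := by
    intro x hx
    refine (hgain x (lt_of_le_of_lt hx h0)).trans ?_
    exact mul_le_mul' (max_le_max le_rfl hx) le_rfl
  obtain ⟨n, hn⟩ := harch e c helt hc
  obtain ⟨z, d, hzd, hz⟩ := exists_deep_rep_of_gain v p T hε1 hgain' (ξ : Fˣ) le_rfl hξ n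
  -- `z` is a `p`-divisible unit representing the same class
  have hzmem : z ∈ pDivUnits K F p := by
    have : z = (ξ : Fˣ) * (d⁻¹) ^ p := by
      rw [hzd, inv_pow, mul_assoc, mul_inv_cancel, mul_one]
    rw [this]
    exact mul_mem ξ.2 (pow_mem_pDivUnits K F p _)
  refine ⟨⟨z, hzmem⟩, ?_, ?_⟩
  · show Additive.ofMul _ = Additive.ofMul _
    congr 1
    rw [Kum.mk_eq_mk_iff]
    exact ⟨d, hzd⟩
  · apply exists_eq_mul_of_val_le R hc
    show v ((z : F) - 1) ≤ v (algebraMap K F c)
    refine hz.trans ?_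
    have h3 : ε ^ n * δ₀ ≤ ε ^ n := by
      calc ε ^ n * δ₀ ≤ ε ^ n * 1 := mul_le_mul' le_rfl h0.le
        _ = ε ^ n := mul_one _
    refine h3.trans ?_
    rw [heq, ← map_pow, ← map_pow]
    exact (val_algebraMap_le_iff R hc).mpr (by rw [map_pow]; exact hn)

end Fermat.Agent.GF.NormDepth.Inst

end
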