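/-
GATE-F (S44) / node GF-NORMDEPTH-INST-ASM, file 4 (helper86): **the RATIONAL depth iteration**
(board 6222 (b), RULING-3 6239): the `U`-iteration run on ONE function `ξ`, keeping track of a
subgroup `Fix ≤ Fˣ` ("`K'`-rational functions") and of a subgroup `Cst ≤ Fˣ` ("`K'`-rational
constants") which are stable under the operator `T`.

`R : RedData K F k Ft`, `Unram R`, `Arch R.A`, `T : Fˣ →* Fˣ` gaining depth,
`T Fix ⊆ Fix`, `T Cst ⊆ Cst`, `T ξ = b * ξ * c ^ p` with `b ∈ Cst`, `c ∈ Fix`, and a start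
`ξ = a₀ * z₀ * d₀ ^ p` (`a₀ ∈ Cst`, `z₀ d₀ ∈ Fix`, `v (z₀ - 1) < 1`).  Then for every constant
`e ≠ 0` of the base:
  `ξ = a * z * d ^ p`, `a ∈ Cst`, `z d ∈ Fix`, `z - 1 ∈ e • R.Rw`.
(`a_{n+1} = b⁻¹ * T a_n`, `z_{n+1} = T z_n`, `d_{n+1} = T d_n / c`.)
-/
import Mathlib
import Fermat.Agent.GF.NormDepth.Inst.Deep

set_option autoImplicit false
set_option linter.unusedSectionVars false

noncomputable section

namespace Fermat.Agent.GF.NormDepth.Inst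

open Fermat.Agent.GJ.J1 Fermat.Agent.GF.Trop Fermat.Agent.GF.NormDepth

variable {K F k Ft : Type*} [Field K] [Field F] [Algebra K F] [Field k] [Field Ft] [Algebra k Ft]

/-- **one step of the rational iteration** (pure group theory): from `ξ = a * z * d ^ p` and
`T ξ = b * ξ * c ^ p` get `ξ = (b⁻¹ * T a) * T z * (T d * c⁻¹) ^ p`. -/
theorem rat_step {G : Type*} [CommGroup G] (T : G →* G) (p : ℕ) {ξ a z d b c : G}
    (h : ξ = a * z * d ^ p) (hT : T ξ = b * ξ * c ^ p) :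
    ξ = (b⁻¹ * T a) * T z * (T d * c⁻¹) ^ p := by
  have h1 : T ξ = T a * T z * T d ^ p := by rw [h, map_mul, map_mul, map_pow]
  have h2 : ξ = b⁻¹ * T ξ * (c ^ p)⁻¹ := by
    rw [hT]
    rw [mul_assoc b, inv_mul_cancel_left, mul_inv_cancel_right]
  rw [h2, h1, mul_pow, inv_pow]
  simp only [mul_assoc, mul_comm, mul_left_comm]

/-- **the rational depth iteration, `n` steps.** -/
theorem exists_rat_rep_of_gain {Γ₀ : Type*} [LinearOrderedCommGroupWithZero Γ₀]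
    (v : Valuation F Γ₀) (p : ℕ) (T : Fˣ →* Fˣ) {ε δ₀ : Γ₀} (hε : ε ≤ 1)
    (hgain : ∀ x : Fˣ, v ((x : F) - 1) ≤ δ₀ → v ((T x : F) - 1) ≤ ε * v ((x : F) - 1))
    (Fix Cst : Subgroup Fˣ) (hTF : ∀ u ∈ Fix, T u ∈ Fix) (hTC : ∀ a ∈ Cst, T a ∈ Cst)
    (ξ : Fˣ) (hξ : ∃ b ∈ Cst, ∃ c ∈ Fix, T ξ = b * ξ * c ^ p)
    {a₀ z₀ d₀ : Fˣ} (ha₀ : a₀ ∈ Cst) (hz₀ : z₀ ∈ Fix) (hd₀ : d₀ ∈ Fix)
    (hstart : ξ = a₀ * z₀ * d₀ ^ p) (h0 : v ((z₀ : F) - 1) ≤ δ₀) (n : ℕ) :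
    ∃ a ∈ Cst, ∃ z ∈ Fix, ∃ d ∈ Fix, ξ = a * z * d ^ p ∧ v ((z : F) - 1) ≤ ε ^ n * δ₀ := by
  obtain ⟨b, hb, c, hc, hT⟩ := hξ
  induction n with
  | zero => exact ⟨a₀, ha₀, z₀, hz₀, d₀, hd₀, hstart, by simpa using h0⟩
  | succ n ih =>
    obtain ⟨a, ha, z, hz, d, hd, hξ', hzv⟩ := ih
    have hεn : ε ^ n ≤ 1 := pow_le_one' hε n
    have hzδ : v ((z : F) - 1) ≤ δ₀ :=
      hzv.trans (by simpa using mul_le_mul' hεn (le_refl δ₀))
    refine ⟨b⁻¹ * T a, Cst.mul_mem (Cst.inv_mem hb) (hTC a ha), T z, hTF z hz, T d * c⁻¹,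
      Fix.mul_mem (hTF d hd) (Fix.inv_mem hc), rat_step T p hξ' hT, ?_⟩
    calc v ((T z : F) - 1) ≤ ε * v ((z : F) - 1) := hgain z hzδ
      _ ≤ ε * (ε ^ n * δ₀) := mul_le_mul' le_rfl hzv
      _ = ε ^ (n + 1) * δ₀ := by rw [pow_succ', mul_assoc]

variable {R : RedData K F k Ft}

/-- **the rational depth iteration, membership form**: representatives `ξ = a * z * d ^ p` with
`a` a rational constant, `z`, `d` rational and `z - 1 ∈ e • R.Rw` for any constant `e ≠ 0`. -/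
theorem rat_deep_of_gain (hun : Unram R) (harch : Arch R.A) {p : ℕ}
    (hpA : R.A.valuation (p : K) < 1) (hp0 : (p : K) ≠ 0) (T : Fˣ →* Fˣ)
    (hgain : ∀ z : Fˣ, R.Rw.valuation ((z : F) - 1) < 1 →
      R.Rw.valuation ((T z : F) - 1) ≤
        max (R.Rw.valuation (p : F)) (R.Rw.valuation ((z : F) - 1)) *
          R.Rw.valuation ((z : F) - 1))
    (Fix Cst : Subgroup Fˣ) (hTF : ∀ u ∈ Fix, T u ∈ Fix) (hTC : ∀ a ∈ Cst, T a ∈ Cst)
    (ξ : Fˣ) (hξ : ∃ b ∈ Cst, ∃ c ∈ Fix, T ξ = b * ξ * c ^ p)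
    {a₀ z₀ d₀ : Fˣ} (ha₀ : a₀ ∈ Cst) (hz₀ : z₀ ∈ Fix) (hd₀ : d₀ ∈ Fix)
    (hstart : ξ = a₀ * z₀ * d₀ ^ p) (h0 : R.Rw.valuation ((z₀ : F) - 1) < 1)
    (e : K) (he : e ≠ 0) :
    ∃ a ∈ Cst, ∃ z ∈ Fix, ∃ d ∈ Fix, ξ = a * z * d ^ p ∧
      ∃ r ∈ R.Rw, (z : F) - 1 = algebraMap K F e * r := by
  set v := R.Rw.valuation with hv
  by_cases h1 : (z₀ : F) - 1 = 0
  · exact ⟨a₀, ha₀, z₀, hz₀, d₀, hd₀, hstart, 0, R.Rw.zero_mem, by rw [h1, mul_zero]⟩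
  obtain ⟨c0, hc00, hc0⟩ := exists_const_val_eq R hun h1
  have hc0lt : R.A.valuation c0 < 1 := by
    have h2 : v (algebraMap K F c0) < v (algebraMap K F (1 : K)) := by
      rw [map_one, map_one, ← hc0]; exact h0
    rw [lt_iff_not_ge] at h2 ⊢
    intro h3
    apply h2
    exact (val_algebraMap_le_iff R (a := 1) (b := c0) hc00).mpr (by rwa [map_one])
  set δ₀ := v ((z₀ : F) - 1) with hδ₀
  obtain ⟨e', he'0, he'lt, heq⟩ : ∃ e' : K, e' ≠ 0 ∧ R.A.valuation e' < 1 ∧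
      max (v (p : F)) δ₀ = v (algebraMap K F e') := by
    rcases le_total (v (p : F)) δ₀ with hle | hle
    · exact ⟨c0, hc00, hc0lt, by rw [max_eq_right hle, hc0]⟩
    · exact ⟨(p : K), hp0, hpA, by rw [max_eq_left hle, map_natCast (algebraMap K F)]⟩
  set ε := max (v (p : F)) δ₀ with hε
  have hε1 : ε ≤ 1 := by
    rw [heq]
    have := (val_algebraMap_le_iff R (a := e') (b := 1) one_ne_zero).mpr
      (by rw [map_one]; exact he'lt.le)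
    rwa [map_one, map_one] at this
  have hgain' : ∀ x : Fˣ, v ((x : F) - 1) ≤ δ₀ → v ((T x : F) - 1) ≤ ε * v ((x : F) - 1) := by
    intro x hx
    refine (hgain x (lt_of_le_of_lt hx h0)).trans ?_
    exact mul_le_mul' (max_le_max le_rfl hx) le_rfl
  obtain ⟨n, hn⟩ := harch e' e he'lt he
  obtain ⟨a, ha, z, hz, d, hd, hzd, hzv⟩ :=
    exists_rat_rep_of_gain v p T hε1 hgain' Fix Cst hTF hTC ξ hξ ha₀ hz₀ hd₀ hstart le_rfl n
  refine ⟨a, ha, z, hz, d, hd, hzd, ?_⟩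
  apply exists_eq_mul_of_val_le R he
  show v ((z : F) - 1) ≤ v (algebraMap K F e)
  refine hzv.trans ?_
  have h3 : ε ^ n * δ₀ ≤ ε ^ n := by
    calc ε ^ n * δ₀ ≤ ε ^ n * 1 := mul_le_mul' le_rfl h0.le
      _ = ε ^ n := mul_one _
  refine h3.trans ?_
  rw [heq, ← map_pow, ← map_pow]
  exact (val_algebraMap_le_iff R he).mpr (by rw [map_pow]; exact hn)

end Fermat.Agent.GF.NormDepth.Inst

end
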