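/-
GATE-F (S44) / node GF-NORMDEPTH-INST-ASM, file 5 (helper86): **descent of an `m`-th root** in
helper19's normaliser vocabulary (`GF/KumDesc/Generic.Normaliser`), for a base field `K` which is
algebraically closed (so that the `m`-th roots of unity of `F` are constants; no places, no
divisors).

* `exists_const_of_pow_eq_one` : `r ^ m = 1` in `F` ⟹ `r` is a constant;
* `exists_fixed_root` : `n ^ m` fixed by `S` ⟹ `n ^ m = c₁ * m₁ ^ m` with `m₁ = n / lc n` fixed by
  `S` and `c₁ = (lc n) ^ m` an `S`-fixed constant.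
-/
import Fermat.Agent.GF.KumDesc.Generic

set_option autoImplicit false

noncomputable section

open AlgebraicCurve

namespace Fermat.Agent.GF.NormDepth.Inst

open Fermat.Agent.GF.KumDesc.Generic

variable {K F : Type*} [Field K] [Field F] [Algebra K F]

/-- over an algebraically closed base field the roots of unity of `F` are constants -/
theorem exists_const_of_pow_eq_one [IsAlgClosed K] {m : ℕ} (hm : m ≠ 0) {r : F}
    (h : r ^ m = 1) : ∃ c : K, r = algebraMap K F c := by
  have hint : IsIntegral K r :=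
    ⟨Polynomial.X ^ m - Polynomial.C 1, Polynomial.monic_X_pow_sub_C 1 hm, by simp [h]⟩
  have hdeg := IsAlgClosed.degree_eq_one_of_irreducible K (minpoly.irreducible hint)
  obtain ⟨c, hc⟩ := minpoly.mem_range_of_degree_eq_one K r hdeg
  exact ⟨c, hc.symm⟩

/-- **descent of an `m`-th root.** -/
theorem exists_fixed_root [IsAlgClosed K] (m : ℕ) [NeZero m] (S : Set (SemilinearAut K F))
    (ν : Normaliser S) {n : F} (hn : n ≠ 0) (hfix : ∀ g ∈ S, g • (n ^ m) = n ^ m) :
    ∃ (c₁ : K) (m₁ : F), c₁ ≠ 0 ∧ m₁ ≠ 0 ∧ n ^ m = algebraMap K F c₁ * m₁ ^ m ∧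
      (∀ g ∈ S, g • m₁ = m₁) ∧ (∀ g ∈ S, SemilinearAut.baseAut g c₁ = c₁) ∧
      n = algebraMap K F (ν.lc n) * m₁ ∧ c₁ = ν.lc n ^ m := by
  have hm : m ≠ 0 := NeZero.ne m
  have hcn : ν.lc n ≠ 0 := ν.lc_ne_zero hn
  have hlF : algebraMap K F (ν.lc n) ≠ 0 := by
    rw [Ne, map_eq_zero_iff _ (algebraMap K F).injective]; exact hcn
  -- `g • n` is a constant multiple of `n`
  have hgn : ∀ g ∈ S, ∃ c : K, g • n = algebraMap K F c * n := by
    intro g hg
    have h1 : ((g • n) / n) ^ m = 1 := by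
      rw [div_pow, ← smul_pow', hfix g hg]
      exact div_self (pow_ne_zero _ hn)
    obtain ⟨c, hc⟩ := exists_const_of_pow_eq_one (K := K) hm h1
    exact ⟨c, by rw [← hc, div_mul_cancel₀ _ hn]⟩
  have hm₁ : ∀ g ∈ S, g • ν.normalise n = ν.normalise n := by
    intro g hg
    obtain ⟨c, hc⟩ := hgn g hg
    exact ν.smul_normalise hg hn hc
  have hnform : n = algebraMap K F (ν.lc n) * ν.normalise n := by
    unfold Normaliser.normalise
    rw [mul_comm n, mul_inv_cancel_left₀ hlF]
  refine ⟨ν.lc n ^ m, ν.normalise n, pow_ne_zero _ hcn, ν.normalise_ne_zero hn, ?_, hm₁, ?_,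
    hnform, rfl⟩
  · rw [map_pow, ← mul_pow, ← hnform]
  · intro g hg
    rw [← map_pow ν.lc]
    exact ν.baseAut_lc_of_fixed hg (hfix g hg)

end Fermat.Agent.GF.NormDepth.Inst

end
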