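/-
GATE-F (S44) / node GF-NORMDEPTH-INST-ASM, file 6 (helper86): **the `K'`-RATIONAL `U`-iteration on
ONE function** (board 6222 (b), RULING-3 6239), modular frame, level `N' p`, `p ∥ N' p`, `A | p`.

`H` any set of automorphisms of `ℚ̄` (`K' = ℚ̄^H`), acting coefficientwise on `q`-expansions.

* `ratUnits N H`  : the units of `F_N` fixed by `H` ("`K'`-rational functions");
* `ratConsts N H` : the `H`-fixed constants, as units of `F_N`;
* `uNormF_algebraMap` : `U_q c = c ^ q` on constants;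
* `exists_rat_factor` : `g` rational with class in `Knew` ⟹ `U² g = b * g * c ^ p` with `b` a rational
  constant and `c` a rational function;
* **`exists_rat_deep_one`** : `g` rational, class in `Knew`, `g = a₀ * z₀ * d₀ ^ p`
  (`a₀ ∈ ratConsts`, `z₀ d₀ ∈ ratUnits`, `w₁ (z₀ - 1) < 1`) ⟹ for EVERY constant `e ≠ 0`:
  `g = a * z * d ^ p`, `a ∈ ratConsts`, `z d ∈ ratUnits`, `z - 1 ∈ e • Rw₁`;
* **`exists_rat_deep_two`** : the same for the second Gauss valuation `w₂ = w₁ ∘ W_p`.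
-/
import Fermat.Agent.GF.NormDepth.Inst.RatIter
import Fermat.Agent.GF.NormDepth.Inst.RatRoot
import Fermat.Agent.GF.NormDepth.Inst.Final
import Fermat.Agent.GF.KumDesc.Laurent

set_option autoImplicit false
set_option linter.unusedSectionVars false
set_option linter.style.haveILetI false

noncomputable section

namespace Fermat.Agent.GF.NormDepth.Inst

open AlgebraicCurve ModularCurve IsLocalRing
open Fermat.Agent.S24 Fermat.Agent.S24_helper62
open Fermat.Agent.GJ.J1 Fermat.Agent.GJ.J1.Val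
open Fermat.Agent.GJ.KumGroup Fermat.Agent.GJ.Kum.KumType
open Fermat.Agent.GK.AL Fermat.Agent.GK.UQ Fermat.Agent.GK.UTr Fermat.Agent.GK.UqKronecker
open Fermat.Agent.GF.Trop Fermat.Agent.GF.KumDesc.Generic

local notation "GQ" => (AlgebraicClosure ℚ ≃ₐ[ℚ] AlgebraicClosure ℚ)

/-! ### rational units and rational constants -/

section Rat

variable (N : ℕ) [NeZero N] (H : Set GQ)

/-- the units of `F_N` fixed (coefficientwise) by every `σ ∈ H` -/
def ratUnits : Subgroup (FK N)ˣ where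
  carrier := {u | ∀ σ ∈ H, galUnits N σ u = u}
  mul_mem' := fun {u v} hu hv σ hσ => by rw [map_mul, hu σ hσ, hv σ hσ]
  one_mem' := fun σ _ => map_one _
  inv_mem' := fun {u} hu σ hσ => by rw [map_inv, hu σ hσ]

theorem mem_ratUnits {u : (FK N)ˣ} :
    u ∈ ratUnits N H ↔ ∀ σ ∈ H, galUnits N σ u = u := Iff.rfl

/-- a constant, as a unit of `F_N` -/
def constUnit : Kbˣ →* (FK N)ˣ := Units.map ((algebraMap Kb (FK N) : Kb →+* FK N) : Kb →* FK N)

@[simp] theorem coe_constUnit (c : Kbˣ) :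
    ((constUnit N c : (FK N)ˣ) : FK N) = algebraMap Kb (FK N) (c : Kb) := rfl

/-- the `H`-fixed constants, as units of `F_N` -/
def ratConsts : Subgroup (FK N)ˣ where
  carrier := {u | ∃ c : Kbˣ, (∀ σ ∈ H, σ (c : Kb) = c) ∧ u = constUnit N c}
  mul_mem' := by
    rintro _ _ ⟨c, hc, rfl⟩ ⟨d, hd, rfl⟩
    refine ⟨c * d, fun σ hσ => ?_, (map_mul _ _ _).symm⟩
    rw [Units.val_mul, map_mul, hc σ hσ, hd σ hσ]
  one_mem' := ⟨1, fun σ _ => by rw [Units.val_one, map_one], (map_one _).symm⟩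
  inv_mem' := by
    rintro _ ⟨c, hc, rfl⟩
    refine ⟨c⁻¹, fun σ hσ => ?_, (map_inv _ _).symm⟩
    rw [Units.val_inv_eq_inv_val, map_inv₀, hc σ hσ]

theorem mem_ratConsts {u : (FK N)ˣ} :
    u ∈ ratConsts N H ↔ ∃ c : Kbˣ, (∀ σ ∈ H, σ (c : Kb) = c) ∧ u = constUnit N c := Iff.rfl

theorem galUnits_constUnit (σ : GQ) (c : Kbˣ) :
    galUnits N σ (constUnit N c) = constUnit N (Units.map ((σ : Kb ≃+* Kb) : Kb →* Kb) c) := by
  apply Units.ext
  rw [coe_galUnits, coe_constUnit, arithmeticRingAut_algebraMap]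
  rfl

theorem ratConsts_le_ratUnits : ratConsts N H ≤ ratUnits N H := by
  rintro _ ⟨c, hc, rfl⟩ σ hσ
  rw [galUnits_constUnit]
  congr 1
  exact Units.ext (hc σ hσ)

/-- the `H`-part of the arithmetic Galois action, as a set of semilinear automorphisms -/
def ratAuts : Set (SemilinearAut Kb (FK N)) :=
  {g | ∃ σ ∈ H, g = arithmeticGalois (modularFunctionFieldFull N) σ}

/-- **the leading-coefficient normaliser of `F_N`** for the `H`-part of the Galois action -/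
def ratNormaliser : Normaliser (ratAuts N H) :=
  Fermat.Agent.GF.KumDesc.Laurent.normaliser (modularFunctionFieldBar N).val (ratAuts N H)
    (by
      rintro g ⟨σ, -, rfl⟩ x
      rfl)

end Rat

/-! ### `U_q` on constants -/

section Const

variable {N q : ℕ} [NeZero N] [Fact q.Prime]

/-- **`U_q c = c ^ q`** on constants -/
theorem uNormF_algebraMap (hqN : q ∣ N) (c : Kb) :
    uNormF N q (algebraMap Kb (FK N) c) = algebraMap Kb (FK N) (c ^ q) := by
  apply Subtype.ext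
  rw [coe_uNormF hqN]
  have e1 : ((algebraMap Kb (FK N) c : FK N) : LaurentSeries Kb) = HahnSeries.single 0 c := by
    show algebraMap Kb (LaurentSeries Kb) c = _
    exact algebraMap_laurentSeries_eq_single Kb c
  have e2 : ((algebraMap Kb (FK N) (c ^ q) : FK N) : LaurentSeries Kb) =
      (HahnSeries.single 0 c) ^ q := by
    rw [map_pow]
    show ((algebraMap Kb (FK N) c : FK N) : LaurentSeries Kb) ^ q = _
    rw [e1]
  rw [e1, e2]
  have e3 : qExpand Kb q (HahnSeries.single (0 : ℤ) c) = HahnSeries.single 0 c := by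
    rw [qExpand_single, mul_zero]
  conv_lhs => rw [← e3]
  exact Fermat.Agent.GJ.Kum.normL_qExpand q _

theorem uNormUnits_constUnit (hqN : q ∣ N) (c : Kbˣ) :
    uNormUnits hqN (constUnit N c) = constUnit N (c ^ q) := by
  apply Units.ext
  rw [coe_uNormUnits, coe_constUnit, uNormF_algebraMap hqN, coe_constUnit, Units.val_pow_eq_pow_val]

end Const

/-! ### `T = U_p ∘ U_p` and rationality -/

section Main

variable {N' p : ℕ} [NeZero N'] [Fact p.Prime] (h : ExactDvd p (N' * p))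
  {A : ValuationSubring Kbar} (H : Set GQ)

/-- `U ∘ U` commutes with the Galois action -/
theorem galUnits_TT (σ : GQ) (u : (FK (N' * p))ˣ) :
    galUnits (N' * p) σ (TT (N' := N') (p := p) u) =
      TT (N' := N') (p := p) (galUnits (N' * p) σ u) := by
  unfold TT
  rw [MonoidHom.comp_apply, MonoidHom.comp_apply, galUnits_uNormUnits, galUnits_uNormUnits]

theorem TT_mem_ratUnits {u : (FK (N' * p))ˣ} (hu : u ∈ ratUnits (N' * p) H) :
    TT (N' := N') (p := p) u ∈ ratUnits (N' * p) H :=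
  fun σ hσ => by rw [galUnits_TT, hu σ hσ]

/-- `U² c = c ^ (p²)` on constants -/
theorem TT_constUnit (c : Kbˣ) :
    TT (N' := N') (p := p) (constUnit (N' * p) c) = constUnit (N' * p) ((c ^ p) ^ p) := by
  unfold TT
  rw [MonoidHom.comp_apply, uNormUnits_constUnit, uNormUnits_constUnit]

theorem TT_mem_ratConsts {a : (FK (N' * p))ˣ} (ha : a ∈ ratConsts (N' * p) H) :
    TT (N' := N') (p := p) a ∈ ratConsts (N' * p) H := by
  obtain ⟨c, hc, rfl⟩ := ha
  refine ⟨(c ^ p) ^ p, fun σ hσ => ?_, TT_constUnit c⟩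
  rw [Units.val_pow_eq_pow_val, Units.val_pow_eq_pow_val, map_pow, map_pow, hc σ hσ]

/-- the semilinear action on (the value of) a unit is `galUnits` -/
theorem smul_coe_unit (σ : GQ) (u : (FK (N' * p))ˣ) :
    arithmeticGalois (modularFunctionFieldFull (N' * p)) σ • ((u : (FK (N' * p))ˣ) : FK (N' * p)) =
      ((galUnits (N' * p) σ u : (FK (N' * p))ˣ) : FK (N' * p)) := rfl

/-- **`U² g = b * g * c ^ p` with RATIONAL `b` (constant) and `c`**, for a rational `g` with class in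
the `p`-new part. -/
theorem exists_rat_factor (g : pDivUnits Kb (FK (N' * p)) p)
    (hg : (g : (FK (N' * p))ˣ) ∈ ratUnits (N' * p) H)
    (h1 : aLow N' p p (Additive.ofMul (Kum.mk g)) = 0)
    (h2 : bLow h p (Additive.ofMul (Kum.mk g)) = 0) :
    ∃ b ∈ ratConsts (N' * p) H, ∃ c ∈ ratUnits (N' * p) H,
      TT (N' := N') (p := p) (g : (FK (N' * p))ˣ) = b * (g : (FK (N' * p))ˣ) * c ^ p := by
  have hp : p.Prime := Fact.out
  -- the class is fixed by `U ∘ U`
  obtain ⟨w, hw⟩ : ∃ w : (FK (N' * p))ˣ,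
      (g : (FK (N' * p))ˣ) = TT (N' := N') (p := p) g * w ^ p := by
    have e := UEnd_UEnd_eq h h1 h2
    unfold UK at e
    rw [UEnd_mk, UEnd_mk] at e
    obtain ⟨w, hw⟩ := Kum.mk_eq_mk_iff.mp (Additive.ofMul.injective e)
    exact ⟨w, hw⟩
  have hTg : TT (N' := N') (p := p) (g : (FK (N' * p))ˣ) = (g : (FK (N' * p))ˣ) * (w⁻¹) ^ p := by
    conv_rhs => rw [hw]
    rw [inv_pow, mul_inv_cancel_right]
  -- `y = (w⁻¹) ^ p` is rational
  have hy : (w⁻¹) ^ p ∈ ratUnits (N' * p) H := by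
    have : (w⁻¹) ^ p = (g : (FK (N' * p))ˣ)⁻¹ * TT (N' := N') (p := p) g := by
      rw [hTg, inv_mul_cancel_left]
    rw [this]
    exact (ratUnits (N' * p) H).mul_mem ((ratUnits (N' * p) H).inv_mem hg) (TT_mem_ratUnits H hg)
  set n : FK (N' * p) := ((w⁻¹ : (FK (N' * p))ˣ) : FK (N' * p)) with hn
  have hn0 : n ≠ 0 := Units.ne_zero _
  have hnp : n ^ p = (((w⁻¹) ^ p : (FK (N' * p))ˣ) : FK (N' * p)) := by
    rw [Units.val_pow_eq_pow_val]
  have hfix : ∀ gg ∈ ratAuts (N' * p) H, gg • (n ^ p) = n ^ p := by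
    rintro _ ⟨σ, hσ, rfl⟩
    rw [hnp, smul_coe_unit, hy σ hσ]
  haveI : NeZero p := ⟨hp.ne_zero⟩
  obtain ⟨c₁, m₁, hc₁0, hm₁0, hpow, hm₁fix, hc₁fix, -, -⟩ :=
    exists_fixed_root p (ratAuts (N' * p) H) (ratNormaliser (N' * p) H) hn0 hfix
  refine ⟨constUnit (N' * p) (Units.mk0 c₁ hc₁0), ⟨Units.mk0 c₁ hc₁0, fun σ hσ => ?_, rfl⟩,
    Units.mk0 m₁ hm₁0, fun σ hσ => ?_, ?_⟩
  · exact hc₁fix _ ⟨σ, hσ, rfl⟩
  · apply Units.ext
    exact hm₁fix _ ⟨σ, hσ, rfl⟩
  · apply Units.ext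
    rw [hTg]
    simp only [Units.val_mul, Units.val_pow_eq_pow_val, coe_constUnit, Units.val_mk0]
    rw [← hn, hpow]
    ring

variable {H}

/-- **the `K'`-rational `U`-iteration, first component** (board 6222 (b)). -/
theorem exists_rat_deep_one (hA : A.LiesOverPrime p) (g : pDivUnits Kb (FK (N' * p)) p)
    (hg : (g : (FK (N' * p))ˣ) ∈ ratUnits (N' * p) H)
    (h1 : aLow N' p p (Additive.ofMul (Kum.mk g)) = 0)
    (h2 : bLow h p (Additive.ofMul (Kum.mk g)) = 0)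
    {a₀ z₀ d₀ : (FK (N' * p))ˣ} (ha₀ : a₀ ∈ ratConsts (N' * p) H)
    (hz₀ : z₀ ∈ ratUnits (N' * p) H) (hd₀ : d₀ ∈ ratUnits (N' * p) H)
    (hstart : (g : (FK (N' * p))ˣ) = a₀ * z₀ * d₀ ^ p)
    (h0 : (redDataBar (N' * p) A).Rw.valuation ((z₀ : FK (N' * p)) - 1) < 1)
    (e : Kb) (he : e ≠ 0) :
    ∃ a ∈ ratConsts (N' * p) H, ∃ z ∈ ratUnits (N' * p) H, ∃ d ∈ ratUnits (N' * p) H,
      (g : (FK (N' * p))ˣ) = a * z * d ^ p ∧
      ∃ r ∈ (redDataBar (N' * p) A).Rw, (z : FK (N' * p)) - 1 = algebraMap Kb (FK (N' * p)) e * r := by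
  have hp : p.Prime := Fact.out
  have hpA : (redDataBar (N' * p) A).A.valuation ((p : ℕ) : Kbar) < 1 :=
    A.mem_nonunits_iff.1 hA
  have hp0 : ((p : ℕ) : Kbar) ≠ 0 := by exact_mod_cast hp.ne_zero
  have hp1 : (redDataBar (N' * p) A).Rw.valuation ((p : ℕ) : FN (N' * p)) ≤ 1 := by
    have := (val_algebraMap_le_iff (redDataBar (N' * p) A) (a := ((p : ℕ) : Kbar)) (b := 1)
      one_ne_zero).mpr (by rw [map_one]; exact hpA.le)
    rwa [map_one, map_one, map_natCast] at this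
  exact rat_deep_of_gain (Fermat.Agent.GS.F.unram_redDataBar (N' * p) A)
    (Fermat.Agent.GH.Inst.harch A hp hA) hpA hp0 (TT (N' := N') (p := p))
    (fun z hz => gain_TT (udepth A) hp1 z hz) (ratUnits (N' * p) H) (ratConsts (N' * p) H)
    (fun u hu => TT_mem_ratUnits H hu) (fun a ha => TT_mem_ratConsts H ha)
    (g : (FK (N' * p))ˣ) (exists_rat_factor h H g hg h1 h2) ha₀ hz₀ hd₀ hstart h0 e he

/-! ### the second component, by transport along `W_p` -/

/-- `W_p` on units preserves rationality -/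
theorem autUnits_wAut_mem_ratUnits {u : (FK (N' * p))ˣ} (hu : u ∈ ratUnits (N' * p) H) :
    autUnits (wAut h : FK (N' * p) ≃ₐ[Kb] FK (N' * p)) u ∈ ratUnits (N' * p) H := by
  intro σ hσ
  apply Units.ext
  have e := wAut_comm_gal h σ ((u : (FK (N' * p))ˣ) : FK (N' * p))
  have hu' : Fermat.Agent.GJ.Kum.gal (N' * p) σ ((u : (FK (N' * p))ˣ) : FK (N' * p)) =
      ((u : (FK (N' * p))ˣ) : FK (N' * p)) := congrArg Units.val (hu σ hσ)
  rw [hu'] at e
  exact e.symm

/-- `W_p` fixes the constants -/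
theorem autUnits_wAut_constUnit (c : Kbˣ) :
    autUnits (wAut h : FK (N' * p) ≃ₐ[Kb] FK (N' * p)) (constUnit (N' * p) c) =
      constUnit (N' * p) c := by
  apply Units.ext
  rw [coe_autUnits, coe_constUnit, AlgEquiv.commutes]

/-- `W_p` is an involution on units -/
theorem autUnits_wAut_autUnits_wAut (u : (FK (N' * p))ˣ) :
    autUnits (wAut h : FK (N' * p) ≃ₐ[Kb] FK (N' * p))
      (autUnits (wAut h : FK (N' * p) ≃ₐ[Kb] FK (N' * p)) u) = u := by
  apply Units.ext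
  rw [coe_autUnits, coe_autUnits, wAut_wAut]

/-- **the `K'`-rational `U`-iteration, second component** (`w₂ = w₁ ∘ W_p`). -/
theorem exists_rat_deep_two (hA : A.LiesOverPrime p) (g : pDivUnits Kb (FK (N' * p)) p)
    (hg : (g : (FK (N' * p))ˣ) ∈ ratUnits (N' * p) H)
    (h1 : aLow N' p p (Additive.ofMul (Kum.mk g)) = 0)
    (h2 : bLow h p (Additive.ofMul (Kum.mk g)) = 0)
    {a₀ z₀ d₀ : (FK (N' * p))ˣ} (ha₀ : a₀ ∈ ratConsts (N' * p) H)
    (hz₀ : z₀ ∈ ratUnits (N' * p) H) (hd₀ : d₀ ∈ ratUnits (N' * p) H)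
    (hstart : (g : (FK (N' * p))ˣ) = a₀ * z₀ * d₀ ^ p)
    (h0 : (redData2 (N' * p) A h).Rw.valuation ((z₀ : FK (N' * p)) - 1) < 1)
    (e : Kb) (he : e ≠ 0) :
    ∃ a ∈ ratConsts (N' * p) H, ∃ z ∈ ratUnits (N' * p) H, ∃ d ∈ ratUnits (N' * p) H,
      (g : (FK (N' * p))ˣ) = a * z * d ^ p ∧
      ∃ r ∈ (redData2 (N' * p) A h).Rw,
        (z : FK (N' * p)) - 1 = algebraMap Kb (FK (N' * p)) e * r := by
  set W := autUnits (wAut h : FK (N' * p) ≃ₐ[Kb] FK (N' * p)) with hW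
  set g' : pDivUnits Kb (FK (N' * p)) p := ⟨W g, autUnits_mem _ p _ g.2⟩ with hg'
  have hcls : Additive.ofMul (Kum.mk g') = WK h (Additive.ofMul (Kum.mk g)) := rfl
  have h1' : aLow N' p p (Additive.ofMul (Kum.mk g')) = 0 := by
    rw [hcls]; exact h2
  have h2' : bLow h p (Additive.ofMul (Kum.mk g')) = 0 := by
    rw [hcls]
    show aLow N' p p (WK h (WK h (Additive.ofMul (Kum.mk g)))) = 0
    rw [show WK h (WK h (Additive.ofMul (Kum.mk g))) = Additive.ofMul (Kum.mk g) from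
      autEnd_wAut_autEnd_wAut h p _]
    exact h1
  have hWa₀ : W a₀ = a₀ := by
    obtain ⟨c, -, rfl⟩ := ha₀
    exact autUnits_wAut_constUnit h c
  have hstart' : (g' : (FK (N' * p))ˣ) = a₀ * W z₀ * (W d₀) ^ p := by
    show W (g : (FK (N' * p))ˣ) = _
    rw [hstart, map_mul, map_mul, map_pow, hWa₀]
  have h0' : (redDataBar (N' * p) A).Rw.valuation (((W z₀ : (FK (N' * p))ˣ) : FK (N' * p)) - 1) < 1 := by
    rw [← ValuationSubring.mem_nonunits_iff] at h0 ⊢
    have := (mem_nonunits_Rw2_iff (N' * p) A h _).mp h0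
    rwa [map_sub, map_one] at this
  obtain ⟨a, ha, z, hz, d, hd, hgzd, r, hr, hzr⟩ :=
    exists_rat_deep_one h hA g' (autUnits_wAut_mem_ratUnits h hg) h1' h2' ha₀
      (autUnits_wAut_mem_ratUnits h hz₀) (autUnits_wAut_mem_ratUnits h hd₀) hstart' h0' e he
  have hWa : W a = a := by
    obtain ⟨c, -, rfl⟩ := ha
    exact autUnits_wAut_constUnit h c
  refine ⟨a, ha, W z, autUnits_wAut_mem_ratUnits h hz, W d, autUnits_wAut_mem_ratUnits h hd, ?_,
    wAut h r, (wAut_mem_Rw2_iff (N' * p) A h r).mpr hr, ?_⟩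
  · have e1 : W (g' : (FK (N' * p))ˣ) = (g : (FK (N' * p))ˣ) := autUnits_wAut_autUnits_wAut h _
    rw [← e1, hgzd, map_mul, map_mul, map_pow, hWa]
  · show wAut h ((z : (FK (N' * p))ˣ) : FK (N' * p)) - 1 = _
    have := congrArg (wAut h) hzr
    rw [map_sub, map_one, map_mul, AlgEquiv.commutes] at this
    exact this

/-! ### the usual start: `g / a₀` close to `1` for a rational constant `a₀` -/

/-- first component, start `w₁ (g / a₀ - 1) < 1` -/
theorem exists_rat_deep_one_of_const (hA : A.LiesOverPrime p)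
    (g : pDivUnits Kb (FK (N' * p)) p) (hg : (g : (FK (N' * p))ˣ) ∈ ratUnits (N' * p) H)
    (h1 : aLow N' p p (Additive.ofMul (Kum.mk g)) = 0)
    (h2 : bLow h p (Additive.ofMul (Kum.mk g)) = 0)
    {a₀ : (FK (N' * p))ˣ} (ha₀ : a₀ ∈ ratConsts (N' * p) H)
    (h0 : (redDataBar (N' * p) A).Rw.valuation
      (((a₀⁻¹ * (g : (FK (N' * p))ˣ) : (FK (N' * p))ˣ) : FK (N' * p)) - 1) < 1)
    (e : Kb) (he : e ≠ 0) :
    ∃ a ∈ ratConsts (N' * p) H, ∃ z ∈ ratUnits (N' * p) H, ∃ d ∈ ratUnits (N' * p) H,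
      (g : (FK (N' * p))ˣ) = a * z * d ^ p ∧
      ∃ r ∈ (redDataBar (N' * p) A).Rw, (z : FK (N' * p)) - 1 = algebraMap Kb (FK (N' * p)) e * r :=
  exists_rat_deep_one h hA g hg h1 h2 ha₀
    ((ratUnits (N' * p) H).mul_mem
      ((ratUnits (N' * p) H).inv_mem (ratConsts_le_ratUnits (N' * p) H ha₀)) hg)
    (ratUnits (N' * p) H).one_mem
    (by rw [one_pow, mul_one, mul_inv_cancel_left]) h0 e he

/-- second component, start `w₂ (g / a₀ - 1) < 1` -/
theorem exists_rat_deep_two_of_const (hA : A.LiesOverPrime p)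
    (g : pDivUnits Kb (FK (N' * p)) p) (hg : (g : (FK (N' * p))ˣ) ∈ ratUnits (N' * p) H)
    (h1 : aLow N' p p (Additive.ofMul (Kum.mk g)) = 0)
    (h2 : bLow h p (Additive.ofMul (Kum.mk g)) = 0)
    {a₀ : (FK (N' * p))ˣ} (ha₀ : a₀ ∈ ratConsts (N' * p) H)
    (h0 : (redData2 (N' * p) A h).Rw.valuation
      (((a₀⁻¹ * (g : (FK (N' * p))ˣ) : (FK (N' * p))ˣ) : FK (N' * p)) - 1) < 1)
    (e : Kb) (he : e ≠ 0) :
    ∃ a ∈ ratConsts (N' * p) H, ∃ z ∈ ratUnits (N' * p) H, ∃ d ∈ ratUnits (N' * p) H,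
      (g : (FK (N' * p))ˣ) = a * z * d ^ p ∧
      ∃ r ∈ (redData2 (N' * p) A h).Rw,
        (z : FK (N' * p)) - 1 = algebraMap Kb (FK (N' * p)) e * r :=
  exists_rat_deep_two h hA g hg h1 h2 ha₀
    ((ratUnits (N' * p) H).mul_mem
      ((ratUnits (N' * p) H).inv_mem (ratConsts_le_ratUnits (N' * p) H ha₀)) hg)
    (ratUnits (N' * p) H).one_mem
    (by rw [one_pow, mul_one, mul_inv_cancel_left]) h0 e he

end Main

end Fermat.Agent.GF.NormDepth.Inst

end
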