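/-
GATE-F (S44) / node GF-NORMDEPTH-INST-ASM, file 7 (helper86): **the START of the rational
iteration**: a function which is congruent to a unit CONSTANT modulo the maximal ideal of a Gauss
valuation is congruent to an INERTIA-FIXED constant (a root of unity of order prime to `p`:
`GL/Local/InertiaField.exists_rootOfUnity_sub_mem_nonunits`, the inertia field has the full residue
field).  Hence for `H ⊆ I_A`:

* `exists_ratConst_close` : `c ∈ A` a unit, `w (g - c) < 1` ⟹ `∃ a₀ ∈ ratConsts N H`,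
  `w (a₀⁻¹ * g - 1) < 1`;
* `exists_rat_deep_one_of_close`, `exists_rat_deep_two_of_close` : the rational iteration started
  from "`red_i g` is a nonzero constant".
-/
import Fermat.Agent.GF.NormDepth.Inst.RatModular
import Fermat.Agent.GL.Local.InertiaField

set_option autoImplicit false
set_option linter.unusedSectionVars false
set_option linter.style.haveILetI false

noncomputable section

namespace Fermat.Agent.GF.NormDepth.Inst

open AlgebraicCurve ModularCurve IsLocalRing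
open Fermat.Agent.S24 Fermat.Agent.S24_helper62
open Fermat.Agent.GJ.J1 Fermat.Agent.GJ.J1.Val
open Fermat.Agent.GJ.KumGroup Fermat.Agent.GJ.Kum.KumType
open Fermat.Agent.GK.AL Fermat.Agent.GK.UQ Fermat.Agent.GK.UTr Fermat.Agent.GK.UqKronecker
open Fermat.Agent.GF.Trop Fermat.Agent.GL.Local.InertiaField

local notation "GQ" => (AlgebraicClosure ℚ ≃ₐ[ℚ] AlgebraicClosure ℚ)

section Abs

variable {K F k Ft : Type*} [Field K] [Field F] [Algebra K F] [Field k] [Field Ft] [Algebra k Ft]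
  (R : RedData K F k Ft)

/-- a non-unit constant of the base has value `< 1` -/
theorem val_algebraMap_lt_one {x : K} (hx : x ∈ R.A.nonunits) :
    R.Rw.valuation (algebraMap K F x) < 1 := by
  rw [← ValuationSubring.mem_nonunits_iff]
  rw [ValuationSubring.mem_nonunits_iff_exists_mem_maximalIdeal] at hx ⊢
  obtain ⟨hxA, hxm⟩ := hx
  refine ⟨(R.mem_A_iff x).mp hxA, ?_⟩
  rw [mem_maximalIdeal, mem_nonunits_iff] at hxm ⊢
  intro hu
  apply hxm
  obtain ⟨⟨y, hy⟩, hy1⟩ := hu.exists_right_inv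
  have hy1' : algebraMap K F x * y = 1 := congrArg Subtype.val hy1
  have hx0 : x ≠ 0 := by
    rintro rfl
    rw [map_zero, zero_mul] at hy1'
    exact zero_ne_one hy1'
  have hyx : y = algebraMap K F x⁻¹ := by
    rw [map_inv₀]
    exact eq_inv_of_mul_eq_one_right hy1'
  have hinv : x⁻¹ ∈ R.A := (R.mem_A_iff x⁻¹).mpr (hyx ▸ hy)
  exact IsUnit.of_mul_eq_one (⟨x⁻¹, hinv⟩ : R.A) (Subtype.ext (mul_inv_cancel₀ hx0))

end Abs

section Start

variable {N : ℕ} [NeZero N] {p : ℕ} {A : ValuationSubring Kbar} {H : Set GQ}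

/-- **a rational constant close to `g`**, for ANY `RedData` on `F_N` over `A`. -/
theorem exists_ratConst_close {k Ft : Type*} [Field k] [Field Ft] [Algebra k Ft]
    (R : RedData Kb (FK N) k Ft) (hRA : R.A = A) (hp : p.Prime)
    (hA : ((p : ℕ) : Kb) ∈ A.nonunits) (hH : H ⊆ A.inertiaSubgroupIn ℚ)
    (g : (FK N)ˣ) {c : Kb} (hc : c ∈ A) (hcu : c ∉ A.nonunits)
    (h0 : R.Rw.valuation ((g : FK N) - algebraMap Kb (FK N) c) < 1) :
    ∃ a₀ ∈ ratConsts N H,
      R.Rw.valuation (((a₀⁻¹ * g : (FK N)ˣ) : FK N) - 1) < 1 := by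
  obtain ⟨ζ, M, hM, hζ, hcζ⟩ := exists_rootOfUnity_sub_mem_nonunits A hp hA c hc hcu
  have hM0 : M ≠ 0 := fun h => hM (h ▸ dvd_zero p)
  obtain ⟨hζ0, hζA, hζinv⟩ := unit_of_pow_eq_one A hM0 hζ
  have hfix : ∀ σ ∈ H, σ ζ = ζ := fun σ hσ =>
    (mem_inertiaField_iff A ζ).mp (rootOfUnity_mem_inertiaField A hp hA hM hζ) σ (hH hσ)
  refine ⟨constUnit N (Units.mk0 ζ hζ0), ⟨Units.mk0 ζ hζ0, hfix, rfl⟩, ?_⟩
  set v := R.Rw.valuation with hv
  have h1 : v ((g : FK N) - algebraMap Kb (FK N) ζ) < 1 := by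
    have e : (g : FK N) - algebraMap Kb (FK N) ζ =
        ((g : FK N) - algebraMap Kb (FK N) c) + algebraMap Kb (FK N) (c - ζ) := by
      rw [map_sub]; ring
    rw [e]
    refine lt_of_le_of_lt (v.map_add _ _) (max_lt h0 ?_)
    exact val_algebraMap_lt_one R (hRA ▸ hcζ)
  have h2 : v (algebraMap Kb (FK N) ζ⁻¹) ≤ 1 := by
    rw [ValuationSubring.valuation_le_one_iff]
    exact (R.mem_A_iff ζ⁻¹).mp (hRA ▸ hζinv)
  have e2 : (((constUnit N (Units.mk0 ζ hζ0))⁻¹ * g : (FK N)ˣ) : FK N) - 1 =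
      algebraMap Kb (FK N) ζ⁻¹ * ((g : FK N) - algebraMap Kb (FK N) ζ) := by
    have hζF : algebraMap Kb (FK N) ζ ≠ 0 := by simpa using hζ0
    rw [Units.val_mul, Units.val_inv_eq_inv_val, coe_constUnit, Units.val_mk0, map_inv₀]
    field_simp
  rw [e2, map_mul]
  calc v (algebraMap Kb (FK N) ζ⁻¹) * v ((g : FK N) - algebraMap Kb (FK N) ζ)
      ≤ 1 * v ((g : FK N) - algebraMap Kb (FK N) ζ) := mul_le_mul' h2 le_rfl
    _ = v ((g : FK N) - algebraMap Kb (FK N) ζ) := one_mul _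
    _ < 1 := h1

end Start

section Main

variable {N' p : ℕ} [NeZero N'] [Fact p.Prime] (h : ExactDvd p (N' * p))
  {A : ValuationSubring Kbar} {H : Set GQ}

/-- **the rational iteration, first component, started from `red₁ g = ` a nonzero constant**
(`H ⊆ I_A`). -/
theorem exists_rat_deep_one_of_close (hA : A.LiesOverPrime p)
    (hH : H ⊆ A.inertiaSubgroupIn ℚ)
    (g : pDivUnits Kb (FK (N' * p)) p) (hg : (g : (FK (N' * p))ˣ) ∈ ratUnits (N' * p) H)
    (h1 : aLow N' p p (Additive.ofMul (Kum.mk g)) = 0)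
    (h2 : bLow h p (Additive.ofMul (Kum.mk g)) = 0)
    {c : Kb} (hc : c ∈ A) (hcu : c ∉ A.nonunits)
    (h0 : (redDataBar (N' * p) A).Rw.valuation
      (((g : (FK (N' * p))ˣ) : FK (N' * p)) - algebraMap Kb (FK (N' * p)) c) < 1)
    (e : Kb) (he : e ≠ 0) :
    ∃ a ∈ ratConsts (N' * p) H, ∃ z ∈ ratUnits (N' * p) H, ∃ d ∈ ratUnits (N' * p) H,
      (g : (FK (N' * p))ˣ) = a * z * d ^ p ∧
      ∃ r ∈ (redDataBar (N' * p) A).Rw, (z : FK (N' * p)) - 1 = algebraMap Kb (FK (N' * p)) e * r := by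
  obtain ⟨a₀, ha₀, h0'⟩ := exists_ratConst_close (H := H) (redDataBar (N' * p) A) rfl
    (Fact.out : p.Prime) hA hH (g : (FK (N' * p))ˣ) hc hcu h0
  exact exists_rat_deep_one_of_const h hA g hg h1 h2 ha₀ h0' e he

/-- **the rational iteration, second component, started from `red₂ g = ` a nonzero constant**
(`H ⊆ I_A`). -/
theorem exists_rat_deep_two_of_close (hA : A.LiesOverPrime p)
    (hH : H ⊆ A.inertiaSubgroupIn ℚ)
    (g : pDivUnits Kb (FK (N' * p)) p) (hg : (g : (FK (N' * p))ˣ) ∈ ratUnits (N' * p) H)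
    (h1 : aLow N' p p (Additive.ofMul (Kum.mk g)) = 0)
    (h2 : bLow h p (Additive.ofMul (Kum.mk g)) = 0)
    {c : Kb} (hc : c ∈ A) (hcu : c ∉ A.nonunits)
    (h0 : (redData2 (N' * p) A h).Rw.valuation
      (((g : (FK (N' * p))ˣ) : FK (N' * p)) - algebraMap Kb (FK (N' * p)) c) < 1)
    (e : Kb) (he : e ≠ 0) :
    ∃ a ∈ ratConsts (N' * p) H, ∃ z ∈ ratUnits (N' * p) H, ∃ d ∈ ratUnits (N' * p) H,
      (g : (FK (N' * p))ˣ) = a * z * d ^ p ∧
      ∃ r ∈ (redData2 (N' * p) A h).Rw,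
        (z : FK (N' * p)) - 1 = algebraMap Kb (FK (N' * p)) e * r := by
  obtain ⟨a₀, ha₀, h0'⟩ := exists_ratConst_close (H := H) (redData2 (N' * p) A h) rfl
    (Fact.out : p.Prime) hA hH (g : (FK (N' * p))ˣ) hc hcu h0
  exact exists_rat_deep_two_of_const h hA g hg h1 h2 ha₀ h0' e he

end Main

end Fermat.Agent.GF.NormDepth.Inst

end
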