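/-
GATE-F (S40) / node GF-NORMDEPTH-INST-ASM, file 2 (helper86): **S3 (completion-free) by the
U-route** on the modular frame, level `N' p`, `p ∥ N' p`, `A | p`.

For `x ∈ Kum_p(F_{N'p})` in the `p`-new part `Knew = ker α_* ∩ ker β_*` (`β_* = α_* ∘ W_p`):
`U_p = -W_p`, hence `U_p² x = x` (`GK/UTr/TRInst.aUp_aLow_wAut`).  If moreover `x ∈ ker r₁` then the
depth-gaining operator `T = U_p ∘ U_p` (binder `UDepth`, helper50 GF-NORMDEPTH-UDEPTH) produces
representatives of `x` arbitrarily close to `1` for the first Gauss valuation; the second valuation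
is `w₂ = w₁ ∘ W_p`.

* `UDepth h A` : the U-DEPTH binder, valuation form;
* `UEnd_UEnd_eq` : `U (U x) = x` on `Knew`;
* `deep1_of_udepth` : `x ∈ kerRed`, `x ∈ Knew` ⟹ `Deep (redDataBar (N' p) A) p x`;
* `deep2_of_udepth` : `x ∈ kerRed₂`, `x ∈ Knew` ⟹ `Deep (redData2 (N' p) A h) p x`;
* `deep_of_udepth`  : both, for `x ∈ kerRed ⊓ kerRed₂` (`= M⁰`) in `Knew`.
-/
import Fermat.Agent.GF.NormDepth.Inst.Deep
import Fermat.Agent.GF.Trop.RedKumFN
import Fermat.Agent.GK.UTr.TRInst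

set_option autoImplicit false
set_option linter.unusedSectionVars false
set_option linter.style.haveILetI false

noncomputable section

namespace Fermat.Agent.GF.NormDepth.Inst

open AlgebraicCurve ModularCurve IsLocalRing
open Fermat.Agent.S24 Fermat.Agent.S24_helper62
open Fermat.Agent.GJ.J1 Fermat.Agent.GJ.J1.Val
open Fermat.Agent.GJ.KumGroup Fermat.Agent.GJ.Kum.KumType
open Fermat.Agent.GK.AL Fermat.Agent.GK.UQ Fermat.Agent.GK.UTr Fermat.Agent.GK.UqKronecker
open Fermat.Agent.GF.Trop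

variable {N' p : ℕ} [NeZero N'] [Fact p.Prime] (h : ExactDvd p (N' * p))
  (A : ValuationSubring Kbar)

/-- **the U-DEPTH binder** (helper50, GF-NORMDEPTH-UDEPTH), valuation form: `U_p` gains depth for
the first Gauss valuation of `F_{N'p}`. -/
def UDepth : Prop :=
  ∀ z : FN (N' * p), z ≠ 0 → (redDataBar (N' * p) A).Rw.valuation (z - 1) < 1 →
    (redDataBar (N' * p) A).Rw.valuation (uNormF (N' * p) p z - 1) ≤
      max ((redDataBar (N' * p) A).Rw.valuation ((p : ℕ) : FN (N' * p)))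
        ((redDataBar (N' * p) A).Rw.valuation (z - 1)) *
        (redDataBar (N' * p) A).Rw.valuation (z - 1)

/-- `U_p` on `Kum_p(F_{N'p})` -/
abbrev UK : Module.End (ZMod p) (Additive (Kum Kb (FK (N' * p)) p)) :=
  UEnd (N' * p) p (Dvd.intro_left N' rfl)

/-- `W_p` on `Kum_p(F_{N'p})` -/
abbrev WK : Module.End (ZMod p) (Additive (Kum Kb (FK (N' * p)) p)) :=
  autEnd (wAut h : FK (N' * p) ≃ₐ[Kb] FK (N' * p)) p

variable {A}

/-- on `ker α_*`: `U (W x) = -x` -/
theorem UK_WK_eq_neg {x : Additive (Kum Kb (FK (N' * p)) p)} (h1 : aLow N' p p x = 0) :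
    UK (N' := N') (p := p) (WK h x) = -x := by
  have key := aUp_aLow_wAut h p x
  rw [h1, map_zero] at key
  exact (eq_neg_of_add_eq_zero_right key.symm)

/-- **`U² = 1` on `Knew`** -/
theorem UEnd_UEnd_eq {x : Additive (Kum Kb (FK (N' * p)) p)} (h1 : aLow N' p p x = 0)
    (h2 : aLow N' p p (WK h x) = 0) :
    UK (N' := N') (p := p) (UK (N' := N') (p := p) x) = x := by
  have e1 : UK (N' := N') (p := p) x = -(WK h x) := by
    have := UK_WK_eq_neg h h2
    rwa [show WK h (WK h x) = x from autEnd_wAut_autEnd_wAut h p x] at this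
  rw [e1, map_neg, UK_WK_eq_neg h h1, neg_neg]

/-- the composite unit operator `U ∘ U` -/
def TT : (FK (N' * p))ˣ →* (FK (N' * p))ˣ :=
  (uNormUnits (N := N' * p) (q := p) (Dvd.intro_left N' rfl)).comp
    (uNormUnits (N := N' * p) (q := p) (Dvd.intro_left N' rfl))

theorem coe_TT (u : (FK (N' * p))ˣ) :
    ((TT (N' := N') (p := p) u : (FK (N' * p))ˣ) : FK (N' * p)) =
      uNormF (N' * p) p (uNormF (N' * p) p (u : FK (N' * p))) := rfl

/-- `U ∘ U` gains depth -/
theorem gain_TT (hU : UDepth (N' := N') (p := p) A)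
    (hp1 : (redDataBar (N' * p) A).Rw.valuation ((p : ℕ) : FN (N' * p)) ≤ 1)
    (z : (FK (N' * p))ˣ)
    (hz : (redDataBar (N' * p) A).Rw.valuation ((z : FK (N' * p)) - 1) < 1) :
    (redDataBar (N' * p) A).Rw.valuation ((TT (N' := N') (p := p) z : FK (N' * p)) - 1) ≤
      max ((redDataBar (N' * p) A).Rw.valuation ((p : ℕ) : FN (N' * p)))
        ((redDataBar (N' * p) A).Rw.valuation ((z : FK (N' * p)) - 1)) *
        (redDataBar (N' * p) A).Rw.valuation ((z : FK (N' * p)) - 1) := by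
  set v := (redDataBar (N' * p) A).Rw.valuation with hv
  have s1 := hU (z : FK (N' * p)) z.ne_zero hz
  set z1 : (FK (N' * p))ˣ := uNormUnits (N := N' * p) (q := p) (Dvd.intro_left N' rfl) z with hz1
  have hz1c : ((z1 : (FK (N' * p))ˣ) : FK (N' * p)) = uNormF (N' * p) p (z : FK (N' * p)) := rfl
  have hm1 : max (v ((p : ℕ) : FN (N' * p))) (v ((z : FK (N' * p)) - 1)) ≤ 1 :=
    max_le hp1 hz.le
  have s1' : v ((z1 : FK (N' * p)) - 1) ≤ v ((z : FK (N' * p)) - 1) := by
    rw [hz1c]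
    calc v (uNormF (N' * p) p (z : FK (N' * p)) - 1)
        ≤ max (v ((p : ℕ) : FN (N' * p))) (v ((z : FK (N' * p)) - 1)) *
            v ((z : FK (N' * p)) - 1) := s1
      _ ≤ 1 * v ((z : FK (N' * p)) - 1) := mul_le_mul' hm1 le_rfl
      _ = v ((z : FK (N' * p)) - 1) := one_mul _
  have hz1lt : v ((z1 : FK (N' * p)) - 1) < 1 := lt_of_le_of_lt s1' hz
  have s2 := hU (z1 : FK (N' * p)) z1.ne_zero hz1lt
  have hm2 : max (v ((p : ℕ) : FN (N' * p))) (v ((z1 : FK (N' * p)) - 1)) ≤ 1 :=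
    max_le hp1 hz1lt.le
  rw [coe_TT]
  calc v (uNormF (N' * p) p (uNormF (N' * p) p (z : FK (N' * p))) - 1)
      ≤ max (v ((p : ℕ) : FN (N' * p))) (v ((z1 : FK (N' * p)) - 1)) *
          v ((z1 : FK (N' * p)) - 1) := s2
    _ ≤ 1 * v ((z1 : FK (N' * p)) - 1) := mul_le_mul' hm2 le_rfl
    _ = v ((z1 : FK (N' * p)) - 1) := one_mul _
    _ ≤ _ := by rw [hz1c]; exact s1

variable (hA : A.LiesOverPrime p)

include hA in
/-- **S3, first component**: a class of `ker r₁ ∩ Knew` has representatives arbitrarily close to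
`1` for the first Gauss valuation. -/
theorem deep1_of_udepth (hU : UDepth (N' := N') (p := p) A)
    {x : Additive (Kum Kb (FK (N' * p)) p)} (hx : x ∈ kerRed (N' * p) A p)
    (h1 : aLow N' p p x = 0) (h2 : aLow N' p p (WK h x) = 0) :
    Deep (redDataBar (N' * p) A) p x := by
  have hp : p.Prime := Fact.out
  obtain ⟨ξ, hξR, rfl, hred⟩ := (mem_kerRed_iff_exists_prin hp.pos).mp hx
  -- `v (ξ - 1) < 1`
  have h0 : (redDataBar (N' * p) A).Rw.valuation (((ξ : (FK (N' * p))ˣ) : FK (N' * p)) - 1) < 1 := by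
    have hmem : ((ξ : (FK (N' * p))ˣ) : FK (N' * p)) - 1 ∈ (redDataBar (N' * p) A).Rw :=
      sub_mem hξR (redDataBar (N' * p) A).Rw.one_mem
    have hz : (redDataBar (N' * p) A).red ⟨_, hmem⟩ = 0 := by
      have e : (⟨((ξ : (FK (N' * p))ˣ) : FK (N' * p)) - 1, hmem⟩ : (redDataBar (N' * p) A).Rw) =
          ⟨((ξ : (FK (N' * p))ˣ) : FK (N' * p)), hξR⟩ - 1 := rfl
      rw [e, map_sub, hred, map_one, sub_self]
    rw [(redDataBar (N' * p) A).red_eq_zero_iff] at hz
    exact ((redDataBar (N' * p) A).Rw.valuation_lt_one_iff ⟨_, hmem⟩).mp hz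
  -- the class is fixed by `U ∘ U`
  have hfix : ∃ c : (FK (N' * p))ˣ, (ξ : (FK (N' * p))ˣ) = TT (N' := N') (p := p) ξ * c ^ p := by
    have e := UEnd_UEnd_eq h h1 h2
    unfold UK at e
    rw [UEnd_mk, UEnd_mk] at e
    obtain ⟨w, hw⟩ := Kum.mk_eq_mk_iff.mp (Additive.ofMul.injective e)
    exact ⟨w, hw⟩
  -- `v p < 1`
  have hpA : (redDataBar (N' * p) A).A.valuation ((p : ℕ) : Kbar) < 1 :=
    A.mem_nonunits_iff.1 hA
  have hp0 : ((p : ℕ) : Kbar) ≠ 0 := by exact_mod_cast hp.ne_zero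
  have hp1 : (redDataBar (N' * p) A).Rw.valuation ((p : ℕ) : FN (N' * p)) ≤ 1 := by
    have := (val_algebraMap_le_iff (redDataBar (N' * p) A) (a := ((p : ℕ) : Kbar)) (b := 1)
      one_ne_zero).mpr (by rw [map_one]; exact hpA.le)
    rwa [map_one, map_one, map_natCast] at this
  exact deep_of_gain (Fermat.Agent.GS.F.unram_redDataBar (N' * p) A)
    (Fermat.Agent.GH.Inst.harch A hp hA) hpA hp0 (TT (N' := N') (p := p))
    (fun z hz => gain_TT hU hp1 z hz) ξ h0 hfix

/-- transport of deep representatives along `W_p`: `Deep₁ (W x) ⟹ Deep₂ x` -/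
theorem deep2_of_deep1_wAut {x : Additive (Kum Kb (FK (N' * p)) p)}
    (hd : Deep (redDataBar (N' * p) A) p (WK h x)) :
    Deep (redData2 (N' * p) A h) p x := by
  intro c hc
  obtain ⟨u, hu, r, hr, hur⟩ := hd c hc
  refine ⟨⟨autUnits (wAut h : FK (N' * p) ≃ₐ[Kb] FK (N' * p)) u, autUnits_mem _ p _ u.2⟩, ?_,
    wAut h r, ?_, ?_⟩
  · have e : autEnd (wAut h : FK (N' * p) ≃ₐ[Kb] FK (N' * p)) p (Additive.ofMul (Kum.mk u)) =
        autEnd (wAut h : FK (N' * p) ≃ₐ[Kb] FK (N' * p)) p (WK h x) := by rw [hu]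
    rw [show autEnd (wAut h : FK (N' * p) ≃ₐ[Kb] FK (N' * p)) p (WK h x) = x from
      autEnd_wAut_autEnd_wAut h p x, autEnd_mk] at e
    exact e
  · rw [wAut_mem_Rw2_iff]
    exact hr
  · show wAut h ((u : (FK (N' * p))ˣ) : FK (N' * p)) - 1 = algebraMap Kbar (FN (N' * p)) c * wAut h r
    have := congrArg (wAut h) hur
    rw [map_sub, map_one, map_mul, AlgEquiv.commutes] at this
    exact this

include hA in
/-- **S3, second component** -/
theorem deep2_of_udepth (hU : UDepth (N' := N') (p := p) A)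
    {x : Additive (Kum Kb (FK (N' * p)) p)} (hx : x ∈ kerRed₂ h A p)
    (h1 : aLow N' p p x = 0) (h2 : aLow N' p p (WK h x) = 0) :
    Deep (redData2 (N' * p) A h) p x := by
  apply deep2_of_deep1_wAut h
  refine deep1_of_udepth h hA hU ((mem_kerRed₂_iff h p x).mp hx) h2 ?_
  rw [show WK h (WK h x) = x from autEnd_wAut_autEnd_wAut h p x]
  exact h1

include hA in
/-- **S3 (completion-free), U-route**: a class of `M⁰ = ker r₁ ∩ ker r₂` in the `p`-new part has
representatives arbitrarily close to `1` for BOTH Gauss valuations. -/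
theorem deep_of_udepth (hU : UDepth (N' := N') (p := p) A)
    {x : Additive (Kum Kb (FK (N' * p)) p)} (hx1 : x ∈ kerRed (N' * p) A p)
    (hx2 : x ∈ kerRed₂ h A p) (h1 : aLow N' p p x = 0) (h2 : aLow N' p p (WK h x) = 0) :
    Deep (redDataBar (N' * p) A) p x ∧ Deep (redData2 (N' * p) A h) p x :=
  ⟨deep1_of_udepth h hA hU hx1 h1 h2, deep2_of_udepth h hA hU hx2 h1 h2⟩

end Fermat.Agent.GF.NormDepth.Inst

end
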